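import Mathlib
import Fermat.Prelude.Def_ModularCurve_X0

/-!
# The Dedekind psi function as a product over the prime factorisation

`dedekindPsi N = ∏_{p ∣ N} (p + 1) p^{v_p(N) - 1}` for `N ≠ 0`.
-/

set_option autoImplicit false

namespace Fermat.Agent.S28.H50

/-- The indicator function of squarefree numbers, as an arithmetic function. -/
def sqfInd : ArithmeticFunction ℕ := ⟨fun n => if Squarefree n then 1 else 0, by simp⟩

theorem sqfInd_apply (n : ℕ) : sqfInd n = if Squarefree n then 1 else 0 := rfl

theorem sqfInd_isMultiplicative : sqfInd.IsMultiplicative := by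
  refine ⟨by simp [sqfInd_apply], ?_⟩
  intro m n h
  simp only [sqfInd_apply, Nat.squarefree_mul h]
  by_cases hm : Squarefree m <;> by_cases hn : Squarefree n <;> simp [hm, hn]

theorem dedekindPsi_eq_mul (N : ℕ) :
    ModularCurve.dedekindPsi N = (sqfInd * ArithmeticFunction.id) N := by
  rw [ArithmeticFunction.mul_apply,
    Nat.sum_divisorsAntidiagonal (f := fun a b => sqfInd a * ArithmeticFunction.id b)]
  simp [ModularCurve.dedekindPsi, Finset.sum_filter, sqfInd_apply]

theorem dedekindPsi_prime_pow_succ {p k : ℕ} (hp : p.Prime) :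
    ModularCurve.dedekindPsi (p ^ (k + 1)) = (p + 1) * p ^ k := by
  rw [ModularCurve.dedekindPsi, Nat.divisors_prime_pow hp, Finset.sum_filter, Finset.sum_map,
    Finset.sum_range_succ', Finset.sum_range_succ']
  have h0 : ∀ i ∈ Finset.range k, (if Squarefree (p ^ (i + 1 + 1)) then
      p ^ (k + 1) / p ^ (i + 1 + 1) else 0) = 0 := by
    intro i _
    rw [if_neg]
    rw [Nat.squarefree_pow_iff hp.ne_one (by omega)]
    omega
  simp only [Function.Embedding.coeFn_mk]
  rw [Finset.sum_eq_zero h0, zero_add, zero_add, pow_one, pow_zero, if_pos hp.squarefree,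
    if_pos squarefree_one, Nat.div_one, pow_succ, Nat.mul_div_cancel _ hp.pos]
  ring

/-- The Dedekind psi function as a product over the prime factorisation. -/
theorem prod_primeFactors_eq_dedekindPsi (N : ℕ) (hN : N ≠ 0) :
    ∏ p ∈ N.primeFactors, (p + 1) * p ^ (N.factorization p - 1) = ModularCurve.dedekindPsi N := by
  have hmul := sqfInd_isMultiplicative.mul ArithmeticFunction.isMultiplicative_id
  rw [dedekindPsi_eq_mul, hmul.multiplicative_factorization _ hN, Finsupp.prod,
    Nat.support_factorization]
  refine Finset.prod_congr rfl fun p hp => ?_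
  have hpp : p.Prime := Nat.prime_of_mem_primeFactors hp
  have hpos : 0 < N.factorization p :=
    hpp.factorization_pos_of_dvd hN (Nat.dvd_of_mem_primeFactors hp)
  obtain ⟨a, ha⟩ : ∃ a, N.factorization p = a + 1 := ⟨N.factorization p - 1, by omega⟩
  rw [ha, Nat.add_sub_cancel, ← dedekindPsi_eq_mul, dedekindPsi_prime_pow_succ hpp]

end Fermat.Agent.S28.H50
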