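import Mathlib

/-!
# An abstract degree bound for towers of "modular equation" type

Let `K ⊆ Ω` be fields and `x : ℕ → Ω` a sequence (in the application `x d = j(q^d)`).  Assume
* `x m` is a root of a monic polynomial of degree `p + 1` over any field containing `x (p m)`,
* `x m` is a root of a monic polynomial of degree `p` over any field containing `x (p m)` and
  `x (p² m)`,
* `x m ∈ K(x (p m), x (r m))` for distinct primes `p ≠ r`.
Then `[K(x d : d ∣ N) : K(x N)] ≤ ∏_{p ∣ N} (p + 1) p^{v_p(N) - 1}`.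
-/

open IntermediateField Polynomial Module Cardinal

set_option autoImplicit false

namespace Fermat.Agent.S28.H50

variable {K Ω : Type*} [Field K] [Field Ω] [Algebra K Ω]

/-! ### Generalities on relative ranks -/

theorem relrank_sup_adjoin_simple_le (A : IntermediateField K Ω) (x : Ω) (g : Polynomial A)
    (hg : g.Monic) (hx : aeval x g = 0) :
    relrank A (A ⊔ K⟮x⟯) ≤ (g.natDegree : Cardinal) := by
  rw [relrank_eq_rank_of_le le_sup_left]
  have h1 : extendScalars (le_sup_left : A ≤ A ⊔ K⟮x⟯) = A⟮x⟯ := by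
    apply restrictScalars_injective K
    rw [extendScalars_restrictScalars, restrictScalars_adjoin_eq_sup]
  rw [h1]
  have hint : IsIntegral A x := ⟨g, hg, hx⟩
  have := adjoin.finiteDimensional hint
  rw [← Module.finrank_eq_rank, adjoin.finrank hint]
  exact_mod_cast natDegree_le_of_dvd (minpoly.dvd A x hx) hg.ne_zero

theorem relrank_ne_zero' {A B : IntermediateField K Ω} (h : A ≤ B) : relrank A B ≠ 0 := by
  rw [relrank_eq_rank_of_le h]
  exact (rank_pos (R := A) (M := extendScalars h)).ne'

theorem relrank_mono_right {A B C : IntermediateField K Ω} (h1 : A ≤ B) (h2 : B ≤ C) :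
    relrank A B ≤ relrank A C := by
  rw [← relrank_mul_relrank h1 h2]
  exact Cardinal.le_mul_right (relrank_ne_zero' h2)

theorem relrank_tower_le {A B C : IntermediateField K Ω} (h1 : A ≤ B) (h2 : B ≤ C) {m n : ℕ}
    (hm : relrank A B ≤ m) (hn : relrank B C ≤ n) :
    relrank A C ≤ ((m * n : ℕ) : Cardinal) := by
  rw [← relrank_mul_relrank h1 h2]
  push_cast
  exact mul_le_mul' hm hn

theorem relrank_sup_le_mul {A B C : IntermediateField K Ω} (hB : A ≤ B) (hC : A ≤ C) {m n : ℕ}
    (hm : relrank A B ≤ m) (hn : relrank A C ≤ n) :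
    relrank A (B ⊔ C) ≤ ((m * n : ℕ) : Cardinal) := by
  rw [relrank_eq_rank_of_le hB] at hm
  rw [relrank_eq_rank_of_le hC] at hn
  rw [relrank_eq_rank_of_le (le_sup_of_le_left hB), ← extendScalars_sup hB hC]
  have hfin : Module.Finite A (extendScalars hB) :=
    Module.rank_lt_aleph0_iff.mp (lt_of_le_of_lt hm (natCast_lt_aleph0 (n := m)))
  have halg : Algebra.IsAlgebraic A (extendScalars hB) := Algebra.IsAlgebraic.of_finite _ _
  refine (rank_sup_le_of_isAlgebraic _ _ (Or.inl halg)).trans ?_
  push_cast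
  exact mul_le_mul' hm hn

theorem relrank_sup_finset_le (A : IntermediateField K Ω) {ι : Type*} (s : Finset ι)
    (C : ι → IntermediateField K Ω) (n : ι → ℕ) (hA : ∀ i ∈ s, A ≤ C i)
    (hn : ∀ i ∈ s, relrank A (C i) ≤ n i) :
    relrank A (A ⊔ s.sup C) ≤ ((∏ i ∈ s, n i : ℕ) : Cardinal) := by
  classical
  induction s using Finset.induction_on with
  | empty => simp [relrank_self]
  | insert i s hi ih =>
    have hAi := hA i (Finset.mem_insert_self i s)
    have h1 : A ⊔ (insert i s).sup C = C i ⊔ (A ⊔ s.sup C) := by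
      rw [Finset.sup_insert, ← sup_assoc, ← sup_assoc, sup_comm A (C i)]
    rw [h1, Finset.prod_insert hi]
    exact relrank_sup_le_mul hAi le_sup_left (hn i (Finset.mem_insert_self i s))
      (ih (fun j hj ↦ hA j (Finset.mem_insert_of_mem hj))
        (fun j hj ↦ hn j (Finset.mem_insert_of_mem hj)))

/-! ### The tower -/

section Tower

variable (K) (x : ℕ → Ω)

/-- The interface hypotheses on the sequence `x`. -/
structure TowerHyp : Prop where
  first : ∀ p m : ℕ, p.Prime → 0 < m → ∀ A : IntermediateField K Ω, x (p * m) ∈ A →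
    ∃ g : Polynomial A, g.Monic ∧ g.natDegree = p + 1 ∧ aeval (x m) g = 0
  chain : ∀ p m : ℕ, p.Prime → 0 < m → ∀ A : IntermediateField K Ω, x (p * m) ∈ A →
    x (p * p * m) ∈ A → ∃ g : Polynomial A, g.Monic ∧ g.natDegree = p ∧ aeval (x m) g = 0
  mixed : ∀ p r m : ℕ, p.Prime → r.Prime → p ≠ r → 0 < m →
    x m ∈ adjoin K {x (p * m), x (r * m)}

/-- The field `K(x N, x (N/p), …, x (N/p^a))`. -/
noncomputable def chainField (N p : ℕ) : ℕ → IntermediateField K Ω
  | 0 => K⟮x N⟯
  | a + 1 => chainField N p a ⊔ K⟮x (N / p ^ (a + 1))⟯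

theorem chainField_zero (N p : ℕ) : chainField K x N p 0 = K⟮x N⟯ := rfl

theorem chainField_succ (N p a : ℕ) :
    chainField K x N p (a + 1) = chainField K x N p a ⊔ K⟮x (N / p ^ (a + 1))⟯ := rfl

theorem base_le_chainField (N p a : ℕ) : K⟮x N⟯ ≤ chainField K x N p a := by
  induction a with
  | zero => exact le_rfl
  | succ a ih => exact ih.trans le_sup_left

theorem mem_chainField (N p : ℕ) {i a : ℕ} (hi : i ≤ a) :
    x (N / p ^ i) ∈ chainField K x N p a := by
  induction a with
  | zero =>
    obtain rfl : i = 0 := Nat.le_zero.mp hi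
    simpa [chainField] using mem_adjoin_simple_self K (x N)
  | succ a ih =>
    rcases Nat.lt_or_ge i (a + 1) with h | h
    · exact (le_sup_left : chainField K x N p a ≤ _) (ih (Nat.lt_succ_iff.mp h))
    · obtain rfl : i = a + 1 := le_antisymm hi h
      exact (le_sup_right : K⟮x (N / p ^ (a + 1))⟯ ≤ chainField K x N p (a + 1))
        (mem_adjoin_simple_self K _)

variable {K x}

theorem relrank_chainField_le (hx : TowerHyp K x) {N p : ℕ} (hp : p.Prime) (hN : N ≠ 0)
    (a : ℕ) (ha : p ^ (a + 1) ∣ N) :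
    relrank K⟮x N⟯ (chainField K x N p (a + 1)) ≤ (((p + 1) * p ^ a : ℕ) : Cardinal) := by
  induction a with
  | zero =>
    obtain ⟨t, rfl⟩ := ha
    have ht : 0 < t := Nat.pos_of_ne_zero fun h ↦ hN (by simp [h])
    have hdiv : p ^ (0 + 1) * t / p ^ (0 + 1) = t :=
      Nat.mul_div_cancel_left t (pow_pos hp.pos _)
    obtain ⟨g, hg, hdeg, hroot⟩ := hx.first p t hp ht K⟮x (p ^ (0 + 1) * t)⟯
      (by rw [zero_add, pow_one]; exact mem_adjoin_simple_self K (x (p * t)))
    have := relrank_sup_adjoin_simple_le K⟮x (p ^ (0 + 1) * t)⟯ (x t) g hg hroot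
    rw [hdeg] at this
    rw [chainField_succ, chainField_zero, hdiv, pow_zero, mul_one]
    exact this
  | succ a ih =>
    have ha' : p ^ (a + 1) ∣ N := (pow_dvd_pow p (Nat.le_succ (a + 1))).trans ha
    obtain ⟨t, rfl⟩ := ha
    have ht : 0 < t := Nat.pos_of_ne_zero fun h ↦ hN (by simp [h])
    have hpp : 0 < p := hp.pos
    have hdiv : p ^ (a + 1 + 1) * t / p ^ (a + 1 + 1) = t :=
      Nat.mul_div_cancel_left t (pow_pos hpp _)
    have hdiv1 : p ^ (a + 1 + 1) * t / p ^ (a + 1) = p * t := by
      rw [show p ^ (a + 1 + 1) * t = p ^ (a + 1) * (p * t) by ring]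
      exact Nat.mul_div_cancel_left _ (pow_pos hpp _)
    have hdiv2 : p ^ (a + 1 + 1) * t / p ^ a = p * p * t := by
      rw [show p ^ (a + 1 + 1) * t = p ^ a * (p * p * t) by ring]
      exact Nat.mul_div_cancel_left _ (pow_pos hpp _)
    have hm1 : x (p * t) ∈ chainField K x (p ^ (a + 1 + 1) * t) p (a + 1) := by
      have := mem_chainField K x (p ^ (a + 1 + 1) * t) p (le_refl (a + 1))
      rwa [hdiv1] at this
    have hm2 : x (p * p * t) ∈ chainField K x (p ^ (a + 1 + 1) * t) p (a + 1) := by
      have := mem_chainField K x (p ^ (a + 1 + 1) * t) p (Nat.le_succ a)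
      rwa [hdiv2] at this
    obtain ⟨g, hg, hdeg, hroot⟩ := hx.chain p t hp ht _ hm1 hm2
    have h2 := relrank_sup_adjoin_simple_le
      (chainField K x (p ^ (a + 1 + 1) * t) p (a + 1)) (x t) g hg hroot
    rw [hdeg] at h2
    have h3 := relrank_tower_le (base_le_chainField K x _ p (a + 1)) le_sup_left (ih ha') h2
    have e : (p + 1) * p ^ a * p = (p + 1) * p ^ (a + 1) := by ring
    rw [e] at h3
    rw [chainField_succ, hdiv]
    exact h3

/-- The compositum of the prime-power chains. -/
noncomputable def chainSup (K : Type*) {Ω : Type*} [Field K] [Field Ω] [Algebra K Ω]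
    (x : ℕ → Ω) (N : ℕ) : IntermediateField K Ω :=
  K⟮x N⟯ ⊔ N.primeFactors.sup fun p ↦ chainField K x N p (N.factorization p)

theorem mem_chainSup (hx : TowerHyp K x) {N : ℕ} (hN : N ≠ 0) :
    ∀ e d : ℕ, d * e = N → x d ∈ chainSup K x N := by
  intro e
  induction e using Nat.strong_induction_on with
  | _ e ih =>
    intro d hde
    have hd0 : 0 < d := Nat.pos_of_ne_zero fun h ↦ hN (by rw [← hde, h, zero_mul])
    have he0 : e ≠ 0 := fun h ↦ hN (by rw [← hde, h, mul_zero])
    rcases eq_or_ne e 1 with rfl | he1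
    · rw [mul_one] at hde
      rw [hde]
      exact (le_sup_left : K⟮x N⟯ ≤ chainSup K x N) (mem_adjoin_simple_self K (x N))
    · obtain ⟨p, hpp, hpe⟩ : ∃ p : ℕ, p.Prime ∧ p ∣ e :=
        ⟨e.minFac, Nat.minFac_prime he1, Nat.minFac_dvd e⟩
      by_cases hr : ∃ r : ℕ, r.Prime ∧ r ∣ e ∧ r ≠ p
      · obtain ⟨r, hrp, hre, hrne⟩ := hr
        have h1 : x (p * d) ∈ chainSup K x N := by
          obtain ⟨e', rfl⟩ := hpe
          have he' : e' < p * e' := by
            have : 0 < e' := Nat.pos_of_ne_zero fun h ↦ he0 (by rw [h, mul_zero])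
            exact (lt_mul_iff_one_lt_left this).mpr hpp.one_lt
          exact ih e' he' (p * d) (by rw [← hde]; ring)
        have h2 : x (r * d) ∈ chainSup K x N := by
          obtain ⟨e', rfl⟩ := hre
          have he' : e' < r * e' := by
            have : 0 < e' := Nat.pos_of_ne_zero fun h ↦ he0 (by rw [h, mul_zero])
            exact (lt_mul_iff_one_lt_left this).mpr hrp.one_lt
          exact ih e' he' (r * d) (by rw [← hde]; ring)
        have h3 := hx.mixed p r d hpp hrp (Ne.symm hrne) hd0
        have hle : adjoin K {x (p * d), x (r * d)} ≤ chainSup K x N := by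
          rw [adjoin_le_iff]
          rintro y (rfl | rfl)
          · exact h1
          · exact h2
        exact hle h3
      · push Not at hr
        have hpow : e = p ^ e.primeFactorsList.length :=
          Nat.eq_prime_pow_of_unique_prime_dvd he0 fun {q} hq hqe ↦ hr q hq hqe
        obtain ⟨k, hkdef⟩ : ∃ k : ℕ, k = e.primeFactorsList.length := ⟨_, rfl⟩
        rw [← hkdef] at hpow
        have hpk : p ^ k ∣ N := ⟨d, by rw [← hde, hpow, mul_comm]⟩
        have hkle : k ≤ N.factorization p := (hpp.pow_dvd_iff_le_factorization hN).mp hpk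
        have hpN : p ∈ N.primeFactors := by
          rw [Nat.mem_primeFactors]
          exact ⟨hpp, hpe.trans ⟨d, by rw [← hde, mul_comm]⟩, hN⟩
        have hdN : N / p ^ k = d := by
          rw [← hde, hpow]
          exact Nat.mul_div_cancel d (pow_pos hpp.pos k)
        have hmem := mem_chainField K x N p hkle
        rw [hdN] at hmem
        have hle : chainField K x N p (N.factorization p) ≤ chainSup K x N :=
          le_sup_of_le_right
            (Finset.le_sup (f := fun p ↦ chainField K x N p (N.factorization p)) hpN)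
        exact hle hmem

/-- **The abstract degree bound.** -/
theorem relrank_adjoin_divisors_le (hx : TowerHyp K x) {N : ℕ} (hN : N ≠ 0) :
    relrank K⟮x N⟯ (adjoin K (x '' {d | d ∣ N})) ≤
      ((∏ p ∈ N.primeFactors, (p + 1) * p ^ (N.factorization p - 1) : ℕ) : Cardinal) := by
  have hle : adjoin K (x '' {d | d ∣ N}) ≤ chainSup K x N := by
    rw [adjoin_le_iff]
    rintro y ⟨d, ⟨e, he⟩, rfl⟩
    exact mem_chainSup hx hN e d he.symm
  have hbase : K⟮x N⟯ ≤ adjoin K (x '' {d | d ∣ N}) := by
    rw [adjoin_le_iff, Set.singleton_subset_iff]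
    exact subset_adjoin K _ ⟨N, dvd_rfl, rfl⟩
  refine (relrank_mono_right hbase hle).trans ?_
  refine relrank_sup_finset_le K⟮x N⟯ N.primeFactors
    (fun p ↦ chainField K x N p (N.factorization p))
    (fun p ↦ (p + 1) * p ^ (N.factorization p - 1))
    (fun p _ ↦ base_le_chainField K x N p _) fun p hp ↦ ?_
  have hpp : p.Prime := Nat.prime_of_mem_primeFactors hp
  have hpos : 0 < N.factorization p := hpp.factorization_pos_of_dvd hN (Nat.dvd_of_mem_primeFactors hp)
  obtain ⟨a, ha⟩ : ∃ a, N.factorization p = a + 1 := ⟨N.factorization p - 1, by omega⟩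
  rw [ha, Nat.add_sub_cancel]
  exact relrank_chainField_le hx hpp hN a (ha ▸ Nat.ordProj_dvd N p)

end Tower

end Fermat.Agent.S28.H50
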