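import Mathlib
import Fermat.Agent.S28.H50.TowerBound

/-!
# From factorised modular equations to the tower hypotheses

`ModEqHyp x y` packages, for a sequence `x : ℕ → Ω` (think `x d = j(q^d)`) and auxiliary roots
`y p m b` (think `j(ζ_p^b q^m)`), the factorisations
`Φ_p(X, x (p m)) = (X - x (p² m)) ∏_{b < p} (X - y p m b)` with `y p m 0 = x m`, together with the
distinctness of the roots needed for the "mixed" step.  We deduce `TowerHyp K x`.
-/

open IntermediateField Polynomial

set_option autoImplicit false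

namespace Fermat.Agent.S28.H50

variable {K Ω : Type*} [Field K] [Field Ω] [Algebra K Ω]

/-- Specialisation `Φ(X, Y) ↦ Φ(X, a)` of a polynomial in `ℤ[Y][X]`. -/
noncomputable def specY {A : Type*} [CommRing A] (a : A) (Φ : Polynomial (Polynomial ℤ)) :
    Polynomial A :=
  Φ.map (eval₂RingHom (Int.castRingHom A) a)

theorem specY_monic {A : Type*} [CommRing A] (a : A) {Φ : Polynomial (Polynomial ℤ)}
    (hΦ : Φ.Monic) : (specY a Φ).Monic := hΦ.map _

theorem specY_natDegree {A : Type*} [CommRing A] [Nontrivial A] (a : A)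
    {Φ : Polynomial (Polynomial ℤ)} (hΦ : Φ.Monic) : (specY a Φ).natDegree = Φ.natDegree :=
  hΦ.natDegree_map _

theorem specY_map {A B : Type*} [CommRing A] [CommRing B] (f : A →+* B) (a : A)
    (Φ : Polynomial (Polynomial ℤ)) : (specY a Φ).map f = specY (f a) Φ := by
  unfold specY
  rw [Polynomial.map_map]
  congr 1
  refine Polynomial.ringHom_ext' (RingHom.ext_int _ _) ?_
  simp

/-- The factorised modular equations and the distinctness of their roots. -/
structure ModEqHyp (x : ℕ → Ω) (y : ℕ → ℕ → ℕ → Ω) : Prop where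
  fact : ∀ p m : ℕ, p.Prime → 0 < m → ∃ Φ : Polynomial (Polynomial ℤ), Φ.Monic ∧
    Φ.natDegree = p + 1 ∧
    specY (x (p * m)) Φ = (X - C (x (p * p * m))) * ∏ b ∈ Finset.range p, (X - C (y p m b))
  y_zero : ∀ p m : ℕ, y p m 0 = x m
  ne_sq : ∀ p r m : ℕ, p.Prime → r.Prime → p ≠ r → 0 < m → x (p * p * m) ≠ x (r * r * m)
  ne_y : ∀ p r m b : ℕ, p.Prime → r.Prime → 0 < m → b < r → x (p * p * m) ≠ y r m b
  y_inj : ∀ p r m b c : ℕ, p.Prime → r.Prime → p ≠ r → 0 < m → b < p → c < r →
    y p m b = y r m c → b = 0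

section

variable {x : ℕ → Ω} {y : ℕ → ℕ → ℕ → Ω}

theorem eval_prod_X_sub_C_zero {p : ℕ} (hp : 0 < p) (f : ℕ → Ω) :
    (∏ b ∈ Finset.range p, (X - C (f b))).eval (f 0) = 0 := by
  rw [eval_prod]
  exact Finset.prod_eq_zero (Finset.mem_range.mpr hp) (by simp)

theorem ModEqHyp.towerHyp [CharZero K] (h : ModEqHyp x y) : TowerHyp K x := by
  refine ⟨?_, ?_, ?_⟩
  · -- first
    intro p m hp hm A hA
    obtain ⟨Φ, hΦ, hdeg, hfact⟩ := h.fact p m hp hm
    refine ⟨specY (⟨x (p * m), hA⟩ : A) Φ, specY_monic _ hΦ, ?_, ?_⟩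
    · rw [specY_natDegree _ hΦ, hdeg]
    · rw [aeval_def, eval₂_eq_eval_map, specY_map]
      change eval (x m) (specY (x (p * m)) Φ) = 0
      rw [hfact, eval_mul, ← h.y_zero p m, eval_prod_X_sub_C_zero hp.pos, mul_zero]
  · -- chain
    intro p m hp hm A hA hA2
    obtain ⟨Φ, hΦ, hdeg, hfact⟩ := h.fact p m hp hm
    set a : A := ⟨x (p * m), hA⟩ with ha
    set c : A := ⟨x (p * p * m), hA2⟩ with hc
    have hmapΦ : (specY a Φ).map (algebraMap A Ω) = specY (x (p * m)) Φ := specY_map _ _ _
    have hroot : (specY a Φ).IsRoot c := by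
      have h1 : eval (algebraMap A Ω c) ((specY a Φ).map (algebraMap A Ω)) = 0 := by
        rw [hmapΦ, hfact]
        change eval (x (p * p * m)) _ = 0
        simp
      rw [eval_map_algebraMap, aeval_algebraMap_apply] at h1
      have h2 : algebraMap A Ω (aeval c (specY a Φ)) = algebraMap A Ω 0 := by rw [h1, map_zero]
      have h3 := (algebraMap A Ω).injective h2
      rwa [coe_aeval_eq_eval] at h3
    have hdiv := mul_divByMonic_eq_iff_isRoot.mpr hroot
    have hmon : (specY a Φ /ₘ (X - C c)).Monic :=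
      (monic_X_sub_C c).of_mul_monic_left (hdiv.symm ▸ specY_monic a hΦ)
    refine ⟨specY a Φ /ₘ (X - C c), hmon, ?_, ?_⟩
    · rw [natDegree_divByMonic _ (monic_X_sub_C c), natDegree_X_sub_C, specY_natDegree _ hΦ, hdeg,
        Nat.add_sub_cancel]
    · have h1 : ((X - C c) * (specY a Φ /ₘ (X - C c))).map (algebraMap A Ω) =
          (X - C (x (p * p * m))) * ∏ b ∈ Finset.range p, (X - C (y p m b)) := by
        rw [hdiv, hmapΦ, hfact]
      rw [Polynomial.map_mul, Polynomial.map_sub, map_X, map_C] at h1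
      have h2 := mul_left_cancel₀ (X_sub_C_ne_zero _) h1
      rw [aeval_def, eval₂_eq_eval_map, h2, ← h.y_zero p m, eval_prod_X_sub_C_zero hp.pos]
  · -- mixed
    intro p r m hp hr hpr hm
    set K' : IntermediateField K Ω := adjoin K {x (p * m), x (r * m)} with hK'
    have hpm : x (p * m) ∈ K' := subset_adjoin K _ (Set.mem_insert _ _)
    have hrm : x (r * m) ∈ K' := subset_adjoin K _ (Set.mem_insert_of_mem _ rfl)
    obtain ⟨Φ, hΦ, hdeg, hfact⟩ := h.fact p m hp hm
    obtain ⟨Ψ, hΨ, hdegΨ, hfactΨ⟩ := h.fact r m hr hm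
    set P : Polynomial K' := specY (⟨x (p * m), hpm⟩ : K') Φ with hP
    set R : Polynomial K' := specY (⟨x (r * m), hrm⟩ : K') Ψ with hR
    have hPmap : P.map (algebraMap K' Ω) =
        (X - C (x (p * p * m))) * ∏ b ∈ Finset.range p, (X - C (y p m b)) := by
      rw [hP, specY_map]; exact hfact
    have hRmap : R.map (algebraMap K' Ω) =
        (X - C (x (r * r * m))) * ∏ b ∈ Finset.range r, (X - C (y r m b)) := by
      rw [hR, specY_map]; exact hfactΨ
    have hPx : aeval (x m) P = 0 := by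
      rw [aeval_def, eval₂_eq_eval_map, hPmap, eval_mul, ← h.y_zero p m,
        eval_prod_X_sub_C_zero hp.pos, mul_zero]
    have hRx : aeval (x m) R = 0 := by
      rw [aeval_def, eval₂_eq_eval_map, hRmap, eval_mul, ← h.y_zero r m,
        eval_prod_X_sub_C_zero hr.pos, mul_zero]
    have hPmon : P.Monic := specY_monic _ hΦ
    have hint : IsIntegral K' (x m) := ⟨P, hPmon, hPx⟩
    set μ := minpoly K' (x m) with hμ
    have hμP : μ ∣ P := minpoly.dvd K' (x m) hPx
    have hμR : μ ∣ R := minpoly.dvd K' (x m) hRx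
    have hμP' : μ.map (algebraMap K' Ω) ∣ P.map (algebraMap K' Ω) := Polynomial.map_dvd _ hμP
    have hμR' : μ.map (algebraMap K' Ω) ∣ R.map (algebraMap K' Ω) := Polynomial.map_dvd _ hμR
    have hP0 : P.map (algebraMap K' Ω) ≠ 0 := (hPmon.map _).ne_zero
    have hsplitP : (P.map (algebraMap K' Ω)).Splits := by
      rw [hPmap]
      exact (Splits.X_sub_C _).mul (Splits.prod fun b _ ↦ Splits.X_sub_C _)
    have hsplit : (μ.map (algebraMap K' Ω)).Splits := hsplitP.of_dvd hP0 hμP'
    have hsep : (μ.map (algebraMap K' Ω)).Separable :=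
      ((minpoly.irreducible hint).separable).map
    have hnodup := nodup_roots hsep
    have hroots : ∀ ρ ∈ (μ.map (algebraMap K' Ω)).roots, ρ = x m := by
      intro ρ hρ
      have hρ0 : (μ.map (algebraMap K' Ω)).IsRoot ρ := isRoot_of_mem_roots hρ
      have hρP : (P.map (algebraMap K' Ω)).IsRoot ρ := hρ0.dvd hμP'
      have hρR : (R.map (algebraMap K' Ω)).IsRoot ρ := hρ0.dvd hμR'
      rw [hPmap, IsRoot.def, eval_mul, eval_prod, mul_eq_zero, Finset.prod_eq_zero_iff] at hρP
      rw [hRmap, IsRoot.def, eval_mul, eval_prod, mul_eq_zero, Finset.prod_eq_zero_iff] at hρR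
      simp only [eval_sub, eval_X, eval_C, sub_eq_zero, Finset.mem_range] at hρP hρR
      rcases hρP with hρP | ⟨b, hb, hρP⟩ <;> rcases hρR with hρR | ⟨c, hc, hρR⟩
      · exact absurd (hρP.symm.trans hρR) (h.ne_sq p r m hp hr hpr hm)
      · exact absurd (hρP.symm.trans hρR) (h.ne_y p r m c hp hr hm hc)
      · exact absurd (hρR.symm.trans hρP) (h.ne_y r p m b hr hp hm hb)
      · have hb0 : b = 0 := h.y_inj p r m b c hp hr hpr hm hb hc (hρP.symm.trans hρR)
        rw [hρP, hb0, h.y_zero]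
    have hle : (μ.map (algebraMap K' Ω)).roots ≤ {x m} := by
      rw [Multiset.le_iff_subset hnodup]
      intro ρ hρ
      rw [Multiset.mem_singleton]
      exact hroots ρ hρ
    have hcard : (μ.map (algebraMap K' Ω)).natDegree ≤ 1 := by
      rw [hsplit.natDegree_eq_card_roots]
      simpa using Multiset.card_le_card hle
    rw [natDegree_map] at hcard
    have hdeg1 : μ.natDegree = 1 := le_antisymm hcard (minpoly.natDegree_pos hint)
    have hmem := (minpoly.natDegree_eq_one_iff (A := K') (x := x m)).mp hdeg1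
    obtain ⟨z, hz⟩ := hmem
    rw [← hz]
    exact z.2

end

end Fermat.Agent.S28.H50
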