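import Mathlib
import Fermat.Agent.S28.Defs
import Fermat.Agent.S28.Formal
import Fermat.Agent.S28.H50.Bridge
import Fermat.Prelude.Def_ModularCurve_X0ModL

/-!
# M4b: the characteristic-zero upper bound, concrete part

We instantiate the abstract tower bound with `Ω = ℂ((q))`, `x d = j(q^d)`, and transfer the
resulting bound to `ℚ((q))`.
-/

open ModularCurve Polynomial IntermediateField

set_option autoImplicit false

noncomputable section

namespace Fermat.Agent.S28.H50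

/-- A primitive `p`-th root of unity in `ℂˣ` (junk value `1` for `p = 0`). -/
def zetaC (p : ℕ) : ℂˣ :=
  if h : p = 0 then 1 else ((Complex.isPrimitiveRoot_exp p h).isUnit h).unit

theorem zetaC_isPrimitiveRoot {p : ℕ} (hp : p ≠ 0) : IsPrimitiveRoot (zetaC p) p := by
  rw [zetaC, dif_neg hp, ← IsPrimitiveRoot.coe_units_iff]
  exact Complex.isPrimitiveRoot_exp p hp

/-- `j(q^d)` over `ℂ`. -/
def xC (d : ℕ) : LaurentSeries ℂ := jS ℂ 1 d

/-- `j(ζ_p^b q^m)` over `ℂ`. -/
def yC (p m b : ℕ) : LaurentSeries ℂ := jS ℂ (zetaC p ^ b) m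

theorem jS_ne_of_lt {R : Type*} [CommRing R] [Nontrivial R] (c c' : Rˣ) {k k' : ℕ} (hk : k ≠ 0)
    (h : k < k') : jS R c k ≠ jS R c' k' := by
  intro heq
  have h1 : (jS R c k).coeff (-(k' : ℤ)) = 0 := jS_coeff_of_lt c k hk _ (by omega)
  have h2 : (jS R c' k').coeff (-(k' : ℤ)) = ((c'⁻¹ : Rˣ) : R) := jS_coeff_neg c' k' (by omega)
  rw [heq, h2] at h1
  exact (c'⁻¹).ne_zero h1

theorem modEqHyp_C (hmod : ∀ p : ℕ, p.Prime → ∃ Φ : Polynomial (Polynomial ℤ), IsModPoly p Φ) :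
    ModEqHyp xC yC where
  fact := by
    intro p m hp hm
    obtain ⟨Φ, hΦ⟩ := hmod p hp
    refine ⟨Φ, hΦ.monic, hΦ.natDegree_eq, ?_⟩
    have h := hΦ.fact_qSub hp ℂ (zetaC p) (zetaC_isPrimitiveRoot hp.ne_zero) 1 m hm.ne'
    simp only [one_pow, mul_one] at h
    rw [show m * p = p * m by ring, show m * (p * p) = p * p * m by ring] at h
    exact h
  y_zero := by
    intro p m
    simp [yC, xC]
  ne_sq := by
    intro p r m hp hr hpr hm
    have hp0 := hp.pos
    have hr0 := hr.pos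
    rcases Nat.lt_or_gt_of_ne hpr with h | h
    · refine jS_ne_of_lt 1 1 (by positivity) ?_
      exact Nat.mul_lt_mul_of_pos_right (Nat.mul_self_lt_mul_self h) hm
    · refine (jS_ne_of_lt 1 1 (by positivity) ?_).symm
      exact Nat.mul_lt_mul_of_pos_right (Nat.mul_self_lt_mul_self h) hm
  ne_y := by
    intro p r m b hp hr hm hb
    refine (jS_ne_of_lt _ _ hm.ne' ?_).symm
    have h2 := hp.two_le
    have h1 : 1 < p * p := by nlinarith
    calc m = 1 * m := (one_mul m).symm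
      _ < p * p * m := Nat.mul_lt_mul_of_pos_right h1 hm
  y_inj := by
    intro p r m b c hp hr hpr hm hb hc heq
    have h1 := jS_coeff_neg (zetaC p ^ b) m hm.ne'
    have h2 := jS_coeff_neg (zetaC r ^ c) m hm.ne'
    have heq' : jS ℂ (zetaC p ^ b) m = jS ℂ (zetaC r ^ c) m := heq
    rw [heq', h2] at h1
    have h3 : zetaC r ^ c = zetaC p ^ b := inv_injective (Units.ext h1)
    have hup : (zetaC p ^ b) ^ p = 1 := by
      rw [← pow_mul, mul_comm, pow_mul, (zetaC_isPrimitiveRoot hp.ne_zero).pow_eq_one, one_pow]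
    have hur : (zetaC p ^ b) ^ r = 1 := by
      rw [← h3, ← pow_mul, mul_comm, pow_mul, (zetaC_isPrimitiveRoot hr.ne_zero).pow_eq_one,
        one_pow]
    have hcop : Nat.gcd p r = 1 := (Nat.coprime_primes hp hr).mpr hpr
    have hu1 : zetaC p ^ b = 1 := by
      have hd : orderOf (zetaC p ^ b) ∣ Nat.gcd p r :=
        Nat.dvd_gcd (orderOf_dvd_of_pow_eq_one hup) (orderOf_dvd_of_pow_eq_one hur)
      rw [hcop] at hd
      exact orderOf_eq_one_iff.mp (Nat.dvd_one.mp hd)
    have hdvd : p ∣ b := ((zetaC_isPrimitiveRoot hp.ne_zero).pow_eq_one_iff_dvd b).mp hu1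
    exact Nat.eq_zero_of_dvd_of_lt hdvd hb

theorem towerHyp_C (hmod : ∀ p : ℕ, p.Prime → ∃ Φ : Polynomial (Polynomial ℤ), IsModPoly p Φ) :
    TowerHyp ℚ xC :=
  (modEqHyp_C hmod).towerHyp

/-- The coefficient embedding `ℚ((q)) → ℂ((q))` as a `ℚ`-algebra homomorphism. -/
def iotaC : LaurentSeries ℚ →ₐ[ℚ] LaurentSeries ℂ := (coeffMap (algebraMap ℚ ℂ)).toRatAlgHom

theorem iotaC_qExpand_jq (d : ℕ) [NeZero d] : iotaC (qExpand ℚ d jq) = xC d := by
  change coeffMap (algebraMap ℚ ℂ) (jqNModC ℚ d) = jS ℂ 1 d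
  rw [ModularCurve.coeffMap_jqNModC, jS_one_eq_jqNModC]

theorem map_adjoin_jqN (N : ℕ) [NeZero N] :
    (adjoin ℚ {jqN N}).map iotaC = ℚ⟮xC N⟯ := by
  rw [adjoin_map, Set.image_singleton]
  congr 2
  exact iotaC_qExpand_jq N

theorem map_modularFunctionFieldFull (N : ℕ) [NeZero N] :
    (modularFunctionFieldFull N).map iotaC = adjoin ℚ (xC '' {d | d ∣ N}) := by
  rw [modularFunctionFieldFull, adjoin_map]
  congr 1
  ext z
  constructor
  · rintro ⟨_, ⟨d, hd, hdN, rfl⟩, rfl⟩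
    exact ⟨d, hdN, (iotaC_qExpand_jq d).symm⟩
  · rintro ⟨d, hdN, rfl⟩
    have hd : NeZero d := ⟨ne_zero_of_dvd_ne_zero (NeZero.ne N) hdN⟩
    exact ⟨_, ⟨d, hd, hdN, rfl⟩, iotaC_qExpand_jq d⟩

/-- The upper bound, in product form. -/
theorem relrank_full_le (hmod : ∀ p : ℕ, p.Prime → ∃ Φ : Polynomial (Polynomial ℤ), IsModPoly p Φ)
    (N : ℕ) [NeZero N] :
    relrank (adjoin ℚ {jqN N}) (modularFunctionFieldFull N) ≤
      ((∏ p ∈ N.primeFactors, (p + 1) * p ^ (N.factorization p - 1) : ℕ) : Cardinal) := by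
  rw [← relrank_map_map _ _ iotaC, map_adjoin_jqN, map_modularFunctionFieldFull]
  exact relrank_adjoin_divisors_le (towerHyp_C hmod) (NeZero.ne N)

theorem adjoin_jqN_le_full (N : ℕ) [NeZero N] :
    adjoin ℚ {jqN N} ≤ modularFunctionFieldFull N := by
  rw [adjoin_le_iff, Set.singleton_subset_iff]
  exact jqd_mem_full N dvd_rfl

/-- The upper bound for `relfinrank`, in product form, together with positivity. -/
theorem relfinrank_full_le (hmod : ∀ p : ℕ, p.Prime → ∃ Φ : Polynomial (Polynomial ℤ), IsModPoly p Φ)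
    (N : ℕ) [NeZero N] :
    0 < relfinrank (adjoin ℚ {jqN N}) (modularFunctionFieldFull N) ∧
    relfinrank (adjoin ℚ {jqN N}) (modularFunctionFieldFull N) ≤
      ∏ p ∈ N.primeFactors, (p + 1) * p ^ (N.factorization p - 1) := by
  have h := relrank_full_le hmod N
  have hlt : relrank (adjoin ℚ {jqN N}) (modularFunctionFieldFull N) < Cardinal.aleph0 :=
    lt_of_le_of_lt h (Cardinal.natCast_lt_aleph0)
  constructor
  · rw [relfinrank_eq_toNat_relrank, Cardinal.toNat_pos]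
    exact ⟨relrank_ne_zero' (adjoin_jqN_le_full N), hlt⟩
  · rw [relfinrank_eq_toNat_relrank]
    have := Cardinal.toNat_le_toNat h (Cardinal.natCast_lt_aleph0)
    simpa using this

end Fermat.Agent.S28.H50
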