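import Mathlib
import Fermat.Agent.S28.Defs
import Fermat.Agent.S28.H50.Upper
import Fermat.Agent.S28.H50.Psi

/-!
# M4b: the characteristic-zero upper bound `[ℚ(j(q^d) : d ∣ N) : ℚ(j(q^N))] ≤ ψ(N)`

Final export of package M4b in the shape of the S28 skeleton.
-/

set_option autoImplicit false

namespace Fermat.Agent.S28

open ModularCurve

/-- **M4b, characteristic 0.**  Assuming modular polynomials of every prime level, the field
`ℚ(j(q^d) : d ∣ N)` is finite over `ℚ(j(q^N))`, of degree at most `ψ(N)`. -/
theorem relfinrank_le_dedekindPsi (hmod : HasModPolys) (N : ℕ) [NeZero N] :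
    0 < IntermediateField.relfinrank (IntermediateField.adjoin ℚ {jqN N})
      (modularFunctionFieldFull N) ∧
    IntermediateField.relfinrank (IntermediateField.adjoin ℚ {jqN N}) (modularFunctionFieldFull N)
      ≤ dedekindPsi N := by
  have h := H50.relfinrank_full_le hmod N
  rwa [H50.prod_primeFactors_eq_dedekindPsi N (NeZero.ne N)] at h

end Fermat.Agent.S28
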